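import Fermat.Agent.S19.ND.Main
import Fermat.Agent.S19.G.Main
import Fermat.Agent.S19.B.Main

/-!
# S19 / TOP, part 1 : good characters on `J₀(N)[ℓ^k]`, `ℓ ∤ N`      (helper21)

`exists_good_char` : every `x ≠ 0` in `J₀(N)[ℓ^k]` is separated from `0` by a character all of whose twisted orbit functions are `GCfun A`.
(Used by `S19.lean` and by S32.)
-/

set_option autoImplicit false
set_option synthInstance.maxHeartbeats 400000

noncomputable section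

namespace Fermat.Agent.S19

open AlgebraicCurve ModularCurve Fermat.Agent.S37 Fermat.Agent.S27 Fermat.Agent.S24

theorem TD.tr_mul {K F : Type*} [Field K] [Field F] [Algebra K F] {n : ℕ}
    (g h : SemilinearAut K F) (y : TD K F n) : y.tr (g * h) = (y.tr h).tr g := by
  unfold TD.tr
  congr 1
  · exact mul_smul g h y.D

theorem nsmul_gal {N : ℕ} (σ : GQ) (n : ℕ) (a : JZero N) : n • (σ • a) = σ • (n • a) :=
  (map_nsmul (DistribSMul.toAddMonoidHom (JZero N) σ) n a).symm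

theorem nsmul_gal_eq_zero {N : ℕ} (σ : GQ) {n : ℕ} {a : JZero N} (ha : n • a = 0) :
    n • (σ • a) = 0 := by
  rw [nsmul_gal, ha]
  exact smul_zero (A := JZero N) σ

theorem chi_gal (M : ℕ) [NeZero M] {n : ℕ} (hn : 0 < n) (y : TD Kb (FN M) n) (σ : GQ) (z : JZero M)
    (hz : n • z = 0) :
    σ (chi y (σ⁻¹ • z)) = chi (y.tr (arithmeticGalois (modularFunctionFieldFull M) σ)) z := by
  have h5 := chi_tr (isFF_FN M) hn (arithmeticGalois (modularFunctionFieldFull M) σ) y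
        (σ⁻¹ • z) (nsmul_gal_eq_zero _ hz)
  have h6 : arithmeticGalois (modularFunctionFieldFull M) σ • (σ⁻¹ • z) = z := by
    rw [← galois_smul_pic0_def, smul_inv_smul]
  rw [h6] at h5
  rw [h5]
  rfl

/-- good characters, from an equivariant `b : J₀(N) → J₀(M)` injective on `ℓ^k`-torsion and (GC) at level `M` -/
theorem good_char_of_level (N : ℕ) [NeZero N] (ℓ : ℕ) [Fact ℓ.Prime] (k : ℕ) (M : ℕ) [NeZero M]
    (b : JZero N →+ JZero M) (hb : ∀ (σ : GQ) (x : JZero N), b (σ • x) = σ • b x)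
    (hinj : ∀ x : JZero N, (ℓ ^ k) • x = 0 → b x = 0 → x = 0)
    (A : ValuationSubring Qb)
    (hgc : ∀ (y : TD Kb (FN M) (ℓ ^ k)) (x : JZero M), (ℓ ^ k) • x = 0 →
      GCfun A (fun ρ => chi (y.tr (arithmeticGalois (modularFunctionFieldFull M) ρ)) x))
    (x : JZero N) (hx : (ℓ ^ k) • x = 0) (hx0 : x ≠ 0) :
    ∃ χ : JZero N → Qb,
      (∀ a a', (ℓ ^ k) • a = 0 → (ℓ ^ k) • a' = 0 → χ (a + a') = χ a * χ a') ∧ (∀ a, χ a ≠ 0) ∧
      χ x ≠ 1 ∧ ∀ (ρ₀ : GQ) (a : JZero N), (ℓ ^ k) • a = 0 →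
        GCfun A (fun ρ => (ρ * ρ₀) (χ ((ρ * ρ₀)⁻¹ • a))) := by
  have hℓ : ℓ.Prime := Fact.out
  have hn : 0 < ℓ ^ k := pow_pos hℓ.pos k
  have htb : ∀ a : JZero N, (ℓ ^ k) • a = 0 → (ℓ ^ k) • b a = 0 := by
    intro a ha
    rw [← map_nsmul, ha, map_zero]
  have hbx : b x ≠ 0 := fun h0 => hx0 (hinj x hx h0)
  obtain ⟨y, hy⟩ := exists_chi_ne_one (isFF_FN M) ℓ k (b x) (htb x hx) hbx
  refine ⟨fun a => chi y (b a), fun a a' ha ha' => ?_, fun a => chi_ne_zero (isFF_FN M) hn y _, hy,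
    fun ρ₀ a ha => ?_⟩
  · show chi y (b (a + a')) = _
    rw [map_add]
    exact chi_add (isFF_FN M) hn y _ _ (htb a ha) (htb a' ha')
  · have h7 := hgc (y.tr (arithmeticGalois (modularFunctionFieldFull M) ρ₀)) (b a) (htb a ha)
    refine (congrArg (GCfun A) (funext fun ρ => ?_)).mpr h7
    show (ρ * ρ₀) (chi y (b ((ρ * ρ₀)⁻¹ • a))) = _
    rw [hb, chi_gal M hn y (ρ * ρ₀) (b a) (htb a ha), map_mul, TD.tr_mul]

/-- **good characters** on `J₀(N)[ℓ^k]`, `ℓ ∤ N` -/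
theorem exists_good_char (N : ℕ) [NeZero N] (ℓ : ℕ) [Fact ℓ.Prime] (hℓN : ¬ ℓ ∣ N) (k : ℕ)
    (A : ValuationSubring Qb) (hA : A.LiesOverPrime ℓ)
    (x : JZero N) (hx : (ℓ ^ k) • x = 0) (hx0 : x ≠ 0) :
    ∃ χ : JZero N → Qb,
      (∀ a a', (ℓ ^ k) • a = 0 → (ℓ ^ k) • a' = 0 → χ (a + a') = χ a * χ a') ∧ (∀ a, χ a ≠ 0) ∧
      χ x ≠ 1 ∧ ∀ (ρ₀ : GQ) (a : JZero N), (ℓ ^ k) • a = 0 →
        GCfun A (fun ρ => (ρ * ρ₀) (χ ((ρ * ρ₀)⁻¹ • a))) := by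
  have hℓ : ℓ.Prime := Fact.out
  have hn : 0 < ℓ ^ k := pow_pos hℓ.pos k
  -- the auxiliary prime `r ∈ {2, 3}`, `r ≠ ℓ`
  obtain ⟨r, hr23, hrp, hrℓ⟩ : ∃ r : ℕ, (r = 2 ∨ r = 3) ∧ r.Prime ∧ ℓ ≠ r := by
    by_cases h2 : ℓ = 2
    · exact ⟨3, Or.inr rfl, Nat.prime_three, by omega⟩
    · exact ⟨2, Or.inl rfl, Nat.prime_two, h2⟩
  by_cases hrN : r ∣ N
  · exact good_char_of_level N ℓ k N (AddMonoidHom.id _) (fun _ _ => rfl) (fun _ _ h => h) A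
      (fun y z hz => gc_chi N hr23 hrN hℓ hℓN A hA hn y z hz) x hx hx0
  · haveI : NeZero r := ⟨hrp.ne_zero⟩
    obtain ⟨b, hb, hinj⟩ := exists_beta N r hrp hrN
    have hℓM : ¬ ℓ ∣ N * r := by
      intro h
      rcases (Nat.Prime.dvd_mul hℓ).1 h with h | h
      · exact hℓN h
      · exact hrℓ ((Nat.prime_dvd_prime_iff_eq hℓ hrp).1 h)
    exact good_char_of_level N ℓ k (N * r) b hb (fun z hz h0 => hinj ℓ hℓ hrℓ k z hz h0) A
      (fun y z hz => gc_chi (N * r) hr23 (dvd_mul_left r N) hℓ hℓM A hA hn y z hz) x hx hx0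

end Fermat.Agent.S19
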