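import Fermat.Agent.S19.A.Main
import Fermat.Agent.S19.Char
import Fermat.Agent.S27.AJ.Main
import Fermat.Agent.S27.L.Main

/-!
# S19 / TOP, part 2 : assembly      (helper21)
-/

set_option autoImplicit false
set_option synthInstance.maxHeartbeats 400000

noncomputable section

namespace Fermat.Agent.S19

open AlgebraicCurve ModularCurve Fermat.Agent.S37 Fermat.Agent.S27 Fermat.Agent.S24

/-- the torsion module -/
abbrev Tors (p ℓ k : ℕ) : Type := ↥(Submodule.torsionBy ℤ (JZero p) ((ℓ : ℤ) ^ k))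

theorem mem_tors_iff {p ℓ k : ℕ} (x : JZero p) :
    x ∈ Submodule.torsionBy ℤ (JZero p) ((ℓ : ℤ) ^ k) ↔ (ℓ ^ k) • x = 0 := by
  rw [Submodule.mem_torsionBy_iff, ← natCast_zsmul]
  norm_cast

theorem smul_mem_tors {p ℓ k : ℕ} (σ : GQ) {x : JZero p}
    (hx : x ∈ Submodule.torsionBy ℤ (JZero p) ((ℓ : ℤ) ^ k)) :
    σ • x ∈ Submodule.torsionBy ℤ (JZero p) ((ℓ : ℤ) ^ k) := by
  rw [mem_tors_iff] at hx ⊢
  exact nsmul_gal_eq_zero σ hx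

/-- the Galois action on the torsion module -/
@[reducible] def torsAct (p ℓ k : ℕ) : DistribMulAction GQ (Tors p ℓ k) where
  smul σ x := ⟨σ • x.1, smul_mem_tors σ x.2⟩
  one_smul x := Subtype.ext (one_smul GQ x.1)
  mul_smul σ τ x := Subtype.ext (mul_smul σ τ x.1)
  smul_zero σ := Subtype.ext (smul_zero σ)
  smul_add σ x y := Subtype.ext (smul_add σ x.1 y.1)

theorem finite_tors (p : ℕ) [NeZero p] (ℓ : ℕ) (hℓ : ℓ.Prime) (k : ℕ) : Finite (Tors p ℓ k) := by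
  have h := lefschetz (fun F' _ _ h N hN => complex_case F' h N hN) Kb (FN p) (isFF_FN p) (ℓ ^ k)
    (pow_pos hℓ.pos k)
  have h2 : Nat.card (Pic0.torsion Kb (FN p) (ℓ ^ k)) ≠ 0 := by
    rw [h]
    exact (pow_pos (pow_pos hℓ.pos k) _).ne'
  have h3 : Finite (Pic0.torsion Kb (FN p) (ℓ ^ k)) := Nat.finite_of_card_ne_zero h2
  have h4 : ∀ x : JZero p, x ∈ Submodule.torsionBy ℤ (JZero p) ((ℓ : ℤ) ^ k) →
      x ∈ Pic0.torsion Kb (FN p) (ℓ ^ k) := by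
    intro x hx
    rw [Pic0.mem_torsion]
    rw [Submodule.mem_torsionBy_iff] at hx
    push_cast
    exact hx
  exact Finite.of_injective (fun x : Tors p ℓ k => (⟨x.1, h4 x.1 x.2⟩ : Pic0.torsion Kb (FN p) (ℓ ^ k)))
    (fun x y hxy => Subtype.ext (congrArg (fun z : Pic0.torsion Kb (FN p) (ℓ ^ k) => (z : JZero p)) hxy))

theorem top (p : ℕ) [NeZero p] (ℓ : ℕ) [Fact ℓ.Prime] (hℓp : ¬ ℓ ∣ p) (k : ℕ) :
    ∃ (H : Type) (_ : CommRing H) (_ : HopfAlgebra (GaloisRep.ratLocalizedAt ℓ) H),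
      Module.Finite (GaloisRep.ratLocalizedAt ℓ) H ∧ Module.Flat (GaloisRep.ratLocalizedAt ℓ) H ∧
      Coalgebra.IsCocomm (GaloisRep.ratLocalizedAt ℓ) H ∧
      ∃ e : WithConv (H →ₐ[GaloisRep.ratLocalizedAt ℓ] AlgebraicClosure ℚ) ≃
          ↥(Submodule.torsionBy ℤ (JZero p) ((ℓ : ℤ) ^ k)),
        (∀ f g, e (f * g) = e f + e g) ∧
        ∀ (σ : AlgebraicClosure ℚ ≃ₐ[ℚ] AlgebraicClosure ℚ)
          (f g : WithConv (H →ₐ[GaloisRep.ratLocalizedAt ℓ] AlgebraicClosure ℚ)),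
          (∀ h : H, g h = σ (f h)) → ((e g : JZero p)) = σ • (e f : JZero p) := by
  have hℓ : ℓ.Prime := Fact.out
  have hn : 0 < ℓ ^ k := pow_pos hℓ.pos k
  obtain ⟨A, hA⟩ := exists_liesOver ℓ hℓ
  letI := torsAct p ℓ k
  haveI := finite_tors p ℓ hℓ k
  have hopen : ∀ x : Tors p ℓ k, ∃ E : IntermediateField ℚ Qb, FiniteDimensional ℚ E ∧
      ∀ σ : GQ, (∀ a ∈ E, σ a = a) → σ • x = x := by
    intro x
    obtain ⟨E, hE, hEx⟩ := exists_field_of_def p x.1 (ℓ ^ k) hn ((mem_tors_iff x.1).1 x.2)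
    exact ⟨E, hE, fun σ hσ => Subtype.ext (hEx σ hσ)⟩
  have hχ : ∀ x : Tors p ℓ k, x ≠ 0 → ∃ χ : Tors p ℓ k → Qb, (∀ a b, χ (a + b) = χ a * χ b) ∧
      (∀ a, χ a ≠ 0) ∧ χ x ≠ 1 ∧
      ∀ (ρ₀ : GQ) (a : Tors p ℓ k), GCfun A (fun ρ => (ρ * ρ₀) (χ ((ρ * ρ₀)⁻¹ • a))) := by
    intro x hx
    obtain ⟨χ, hχ1, hχ2, hχ3, hχ4⟩ := exists_good_char p ℓ hℓp k A hA x.1 ((mem_tors_iff x.1).1 x.2)
      (fun h0 => hx (Subtype.ext h0))
    exact ⟨fun a => χ a.1, fun a a' => hχ1 a.1 a'.1 ((mem_tors_iff a.1).1 a.2) ((mem_tors_iff a'.1).1 a'.2),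
      fun a => hχ2 a.1, hχ3, fun ρ₀ a => hχ4 ρ₀ a.1 ((mem_tors_iff a.1).1 a.2)⟩
  obtain ⟨H, i1, i2, h1, h2, h3, e, he1, he2⟩ := flat_of_chars ℓ (Tors p ℓ k) hopen A hA hχ
  exact ⟨H, i1, i2, h1, h2, h3, e, he1, fun σ f g hfg =>
      congrArg (fun z : Tors p ℓ k => (z : JZero p)) (he2 σ f g hfg)⟩

end Fermat.Agent.S19
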