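import Fermat.Agent.S27.Val
import Fermat.Agent.S37.Mod
import Fermat.Prelude.Def_AlgebraicCurve_BaseChangeGalois
import Fermat.Prelude.Def_GaloisRep_Flat
import Fermat.Prelude.Def_ModularCurve_ArithmeticGalois

/-!
# S19 : common definitions  (blueprint: `select body from briefing where title like 'S19-BLUEPRINT%'`)

* `Wring A`, `GCfun A G` : the "integral Galois functions" (abstract layer A).
* `evalD f D = ∏_P f(P)^{D(P)}`, `TD K F n` (torsion data `n D = div u`), `wp a b` (Weil pairing of data with
  disjoint supports), `chi y x` (the character `x ↦ e_n(x, y)` of `Pic0[n]` attached to a datum `y`).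
-/

set_option autoImplicit false

noncomputable section

namespace Fermat.Agent.S19

open AlgebraicCurve Fermat.Agent.S37 Fermat.Agent.S27

abbrev Qb : Type := AlgebraicClosure ℚ
abbrev GQ : Type := AlgebraicClosure ℚ ≃ₐ[ℚ] AlgebraicClosure ℚ

/-- the ring of functions on `G_ℚ` generated by the constants of `A` and the orbit maps `ρ ↦ ρ α`, `α ∈ A` -/
def Wring (A : ValuationSubring Qb) : Subring (GQ → Qb) :=
  Subring.closure ({f | ∃ c ∈ A, f = fun _ => c} ∪ {f | ∃ α ∈ A, f = fun ρ => ρ α})

/-- `G = W1 / W2` with `W1 W2 ∈ Wring A` and `W2 1` a unit of `A` -/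
def GCfun (A : ValuationSubring Qb) (G : GQ → Qb) : Prop :=
  ∃ W1 ∈ Wring A, ∃ W2 ∈ Wring A, W2 1 ≠ 0 ∧ (W2 1)⁻¹ ∈ A ∧ ∀ ρ, W2 ρ * G ρ = W1 ρ

section General

variable {K F : Type*} [Field K] [Field F] [Algebra K F]

/-- the value of `f` on the divisor `D` : `∏_P f(P)^{D(P)}` -/
def evalD (f : F) (D : Divisor K F) : K := D.prod fun P n => (val P f) ^ n

variable (K F) in
/-- an `n`-torsion datum : `n D = div u` -/
structure TD (n : ℕ) where
  D : Divisor K F
  u : F
  u_ne : u ≠ 0
  ord_u : ∀ P : Place K F, P.ord u = n * D P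

variable {n : ℕ}

/-- disjoint supports -/
def TD.Disj (a b : TD K F n) : Prop := Disjoint a.D.support b.D.support

/-- the class of a datum -/
def TD.cl (a : TD K F n) : Pic0 K F := cls a.D

/-- the Weil pairing of two data with disjoint supports -/
def wp (a b : TD K F n) : K := evalD a.u b.D / evalD b.u a.D

open Classical in
/-- the character `x ↦ e_n(x, y)` -/
def chi (y : TD K F n) (x : Pic0 K F) : K :=
  if h : ∃ a : TD K F n, a.cl = x ∧ a.Disj y then wp h.choose y else 1

/-- semilinear transport of data -/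
def TD.tr (g : SemilinearAut K F) (a : TD K F n) : TD K F n where
  D := g • a.D
  u := g • a.u
  u_ne := by
    intro h
    apply a.u_ne
    have h2 : g⁻¹ • (g • a.u) = g⁻¹ • (0 : F) := congrArg (fun z => g⁻¹ • z) h
    rwa [inv_smul_smul, smul_zero] at h2
  ord_u := fun P => by
    have h1 : (g • (g⁻¹ • P)).ord (g • a.u) = (g⁻¹ • P).ord a.u :=
      SemilinearAut.ord_smul g (g⁻¹ • P) a.u
    rw [smul_inv_smul] at h1
    rw [h1, a.ord_u, SemilinearAut.divisor_smul_apply]

end General

end Fermat.Agent.S19
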